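import Fermat.Agent.RED.GalEq.Pull
import Fermat.Agent.RED.ES.Unique
import Fermat.Agent.RED.Deuring.Main

/-!
# RED / GalEq : equivariance of Deuring's reduction of places

Let `(O, red)` be a constant reduction of `F / K` with residue function field `Fb / k` and let
`r : Place K F → Place k Fb` satisfy `r_* div x = div (red x)`.  If a semilinear automorphism `γ`
of `F / K` preserves `O` and induces the semilinear automorphism `γb` of `Fb / k`, then
`r (γ • P) = γb • r P` for every place `P`.
-/

set_option autoImplicit false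

open AlgebraicCurve AlgebraicCurve.SemilinearAut

namespace Fermat.Agent.RED.GalEq

noncomputable section

variable {K F k Fb : Type*} [Field K] [Field F] [Algebra K F] [Field k] [Field Fb] [Algebra k Fb]

/-- The property (P1) of a reduction map of places. -/
def IsP1 (R : RedData K F k Fb) (r : Place K F → Place k Fb) : Prop :=
  ∀ (x : R.O), R.red x ≠ 0 → ∀ D : Divisor K F, (∀ v : Place K F, D v = v.ord (x : F)) →
    ∀ Q : Place k Fb, (D.mapDomain r) Q = Q.ord (R.red x)

/-- `γ` preserves the reduction datum and induces `γb`. -/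
structure Compat (R : RedData K F k Fb) (γ : SemilinearAut K F) (γb : SemilinearAut k Fb) :
    Prop where
  mem : ∀ x : F, x ∈ R.O → γ • x ∈ R.O
  red : ∀ (x : F) (hx : x ∈ R.O), R.red ⟨γ • x, mem x hx⟩ = γb • R.red ⟨x, hx⟩

theorem mapDomain_smul_of_isPrincipal {R : RedData K F k Fb} {r : Place K F → Place k Fb}
    (hP1 : IsP1 R r) {γ : SemilinearAut K F} {γb : SemilinearAut k Fb} (hγ : Compat R γ γb)
    {D : Divisor K F} (hD : D ∈ Divisor.principal (K := K) (F := F)) :
    (γ • D).mapDomain r = γb • D.mapDomain r := by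
  obtain ⟨f, hf, hDf⟩ := hD
  obtain ⟨c, hc, hred⟩ := R.exists_scale f hf
  have hc0 : c ≠ 0 := by
    rintro rfl
    apply hred
    have : (⟨algebraMap K F 0 * f, hc⟩ : R.O) = 0 := Subtype.ext (by simp)
    rw [this, map_zero]
  set x : F := algebraMap K F c * f with hx
  have hDx : ∀ v : Place K F, D v = v.ord x := by
    intro v
    rw [hDf, hx, v.ord_mul (by simpa using hc0) hf, Fermat.Agent.S24.Place.ord_algebraMap,
      zero_add]
  have hred' : R.red ⟨γ • x, hγ.mem x hc⟩ ≠ 0 := by
    rw [hγ.red x hc]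
    simpa using hred
  ext Q
  rw [hP1 ⟨γ • x, hγ.mem x hc⟩ hred' (γ • D) (fun v => by
    rw [divisor_smul_apply, hDx, ord_inv_smul_place]) Q, hγ.red x hc, divisor_smul_apply,
    hP1 ⟨x, hc⟩ hred D hDx, ord_inv_smul_place]

/-- Equivariance of the reduction of places (via helper54's Lemma U). -/
theorem placeMap_smul_of {R : RedData K F k Fb} {r : Place K F → Place k Fb}
    (hP1 : IsP1 R r) (hr : Function.Surjective r) [Nontrivial (Place k Fb)]
    {g : ℕ} {P₀ : Place K F} (h2 : ES.HasEffRep K F g P₀)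
    (hprin : ∀ D ∈ Divisor.principal (K := K) (F := F), ES.cnt D = 0)
    {γ : SemilinearAut K F} {γb : SemilinearAut k Fb} (hγ : Compat R γ γb) (P : Place K F) :
    r (γ • P) = γb • r P := by
  set Φ₁ : Divisor K F →+ Divisor k Fb :=
    (Finsupp.mapDomain.addMonoidHom r).comp (DistribSMul.toAddMonoidHom (Divisor K F) γ) with hΦ₁
  set Φ₂ : Divisor K F →+ Divisor k Fb :=
    (DistribSMul.toAddMonoidHom (Divisor k Fb) γb).comp (Finsupp.mapDomain.addMonoidHom r) with hΦ₂
  have h1 : ∀ P, Φ₁ (Finsupp.single P 1) = Finsupp.single (r (γ • P)) 1 := by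
    intro P
    show Finsupp.mapDomain r (γ • (Finsupp.single P 1 : Divisor K F)) = _
    rw [smul_single, Finsupp.mapDomain_single]
  have h2' : ∀ P, Φ₂ (Finsupp.single P 1) = Finsupp.single (γb • r P) 1 := by
    intro P
    show γb • (Finsupp.mapDomain r (Finsupp.single P 1 : Divisor K F) : Divisor k Fb) = _
    rw [Finsupp.mapDomain_single, smul_single]
  have hpos : ∀ Q : Place k Fb, (0 : Divisor k Fb) ≤ Finsupp.single Q 1 := by
    intro Q Q'
    classical
    rw [Finsupp.single_apply]
    split_ifs <;> simp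
  have := ES.hom_eq_of_agree_on_principal h2 hprin Φ₁ Φ₂ 1
    (fun P => by rw [h1]; exact hpos _) (fun P => by rw [h1, ES.cnt_single])
    (fun P => by rw [h2']; exact hpos _) (fun P => by rw [h2', ES.cnt_single])
    (fun D hD => mapDomain_smul_of_isPrincipal hP1 hγ hD)
    (fun Q => by
      obtain ⟨Q', hQ'⟩ := exists_ne (γb⁻¹ • Q)
      obtain ⟨P, rfl⟩ := hr Q'
      refine ⟨P, ?_⟩
      rw [h2']
      refine Finsupp.single_eq_of_ne fun h => hQ' ?_
      rw [h, inv_smul_smul])
  have h3 := DFunLike.congr_fun this (Finsupp.single P 1)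
  rw [h1, h2'] at h3
  exact Finsupp.single_left_injective one_ne_zero h3

theorem mapDomain_smul_of_placeMap {r : Place K F → Place k Fb}
    {γ : SemilinearAut K F} {γb : SemilinearAut k Fb} (h : ∀ P, r (γ • P) = γb • r P)
    (D : Divisor K F) : (γ • D).mapDomain r = γb • D.mapDomain r := by
  rw [divisor_smul_def, divisor_smul_def, ← Finsupp.mapDomain_comp, ← Finsupp.mapDomain_comp]
  congr 1
  funext P
  exact h P

section Deuring

variable {R : RedData K F k Fb} {g c : ℤ} (H : DeuringHyp R g c)
include H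

theorem cnt_eq_zero_of_principal (D : Divisor K F)
    (hD : D ∈ Divisor.principal (K := K) (F := F)) : ES.cnt D = 0 := by
  have := H.hpd_top
  obtain ⟨f, hf, hDf⟩ := hD
  obtain ⟨D', hD', hdeg⟩ := HasPrincipalDivisors.exists_divisor (K := K) f hf
  have : D = D' := by
    ext v
    rw [hDf, hD']
  rw [ES.cnt_eq_degree H.deg_top, this, hdeg]

theorem hasEffRep (P₀ : Place K F) : ES.HasEffRep K F (c + g).toNat P₀ := by
  have := H.hpd_top
  have hc := H.c_nonneg
  have hg := H.g_nonneg
  intro D hD
  rw [ES.cnt_eq_degree H.deg_top] at hD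
  set D' : Divisor K F := D + Finsupp.single P₀ (((c + g).toNat : ℕ) : ℤ) with hD'
  have hdeg : Divisor.degree D' = c + g := by
    rw [hD', map_add, hD, Divisor.degree_single, H.deg_top P₀, Int.toNat_of_nonneg (by omega)]
    simp
  have hfin := H.riemann_top D' (by omega)
  have hpos : 0 < Module.finrank K (LS D') := by
    have : (0 : ℤ) < (Module.finrank K (LS D') : ℤ) := by rw [hfin, hdeg]; omega
    exact_mod_cast this
  have := H.finite_top D'
  have hnt : Nontrivial (LS D') := Module.nontrivial_of_finrank_pos (R := K) hpos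
  obtain ⟨⟨f, hfm⟩, hf0⟩ := exists_ne (0 : LS D')
  have hf : f ≠ 0 := fun h => hf0 (Subtype.ext h)
  obtain ⟨E, hE, -⟩ := HasPrincipalDivisors.exists_divisor (K := K) f hf
  refine ⟨D' + E, fun v => ?_, ?_⟩
  · have := (mem_LS_of_ne_zero hf).mp hfm v
    rw [Finsupp.add_apply, hE]
    simp only [Finsupp.coe_zero, Pi.zero_apply]
    omega
  · have : D' - (D' + E) = -E := by abel
    rw [this]
    exact neg_mem ⟨f, hf, hE⟩

theorem nontrivial_place_bot : Nontrivial (Place k Fb) := by
  have := H.hpd_bot
  obtain ⟨r, -, -, -⟩ := H.exists_placeMap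
  obtain ⟨P₀⟩ := H.nonempty_top
  set Q := r P₀
  obtain ⟨π, hπ⟩ := IsDiscreteValuationRing.exists_irreducible Q.toValuationSubring
  have hord : Q.ord (π : Fb) = 1 := Q.ord_coe_irreducible hπ
  have hπ0 : (π : Fb) ≠ 0 := by
    intro h0
    rw [h0, Place.ord_zero] at hord
    omega
  obtain ⟨D, hD, hdeg⟩ := HasPrincipalDivisors.exists_divisor (K := k) (π : Fb) hπ0
  by_contra hnt
  rw [not_nontrivial_iff_subsingleton] at hnt
  have : D = Finsupp.single Q 1 := by
    ext Q'
    rw [Subsingleton.elim Q' Q, hD, hord, Finsupp.single_eq_same]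
  rw [this, Divisor.degree_single, H.deg_bot Q] at hdeg
  simp at hdeg

/-- Equivariance of Deuring's reduction of places. -/
theorem placeMap_smul {r : Place K F → Place k Fb} (hP1 : IsP1 R r) (hr : Function.Surjective r)
    {γ : SemilinearAut K F} {γb : SemilinearAut k Fb} (hγ : Compat R γ γb) (P : Place K F) :
    r (γ • P) = γb • r P := by
  have := nontrivial_place_bot H
  obtain ⟨P₀⟩ := H.nonempty_top
  exact placeMap_smul_of hP1 hr (hasEffRep H P₀) (cnt_eq_zero_of_principal H) hγ P

theorem mapDomain_smul {r : Place K F → Place k Fb} (hP1 : IsP1 R r)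
    (hr : Function.Surjective r) {γ : SemilinearAut K F} {γb : SemilinearAut k Fb}
    (hγ : Compat R γ γb) (D : Divisor K F) : (γ • D).mapDomain r = γb • D.mapDomain r :=
  mapDomain_smul_of_placeMap (placeMap_smul H hP1 hr hγ) D

end Deuring

end

end Fermat.Agent.RED.GalEq
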