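import Fermat.Prelude.Def_AlgebraicCurve_Correspondence

/-!
# RED / GalEq : pullback of divisors commutes with semilinear automorphisms

If `g`, `g'` are semilinear automorphisms of `F / K`, `F' / K` which are intertwined by
`φ : F →ₐ[K] F'`, then `φ^* (g • D) = g' • φ^* D`.
-/

set_option autoImplicit false

open AlgebraicCurve AlgebraicCurve.SemilinearAut

namespace Fermat.Agent.RED.GalEq

noncomputable section

variable {K F F' : Type*} [Field K] [Field F] [Field F'] [Algebra K F] [Algebra K F']

theorem ord_smul_place (g : SemilinearAut K F) (v : Place K F) (f : F) :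
    (g • v).ord f = v.ord (g⁻¹ • f) := by
  have := ord_smul g v (g⁻¹ • f)
  rwa [smul_inv_smul] at this

theorem ord_inv_smul_place (g : SemilinearAut K F) (v : Place K F) (f : F) :
    (g⁻¹ • v).ord f = v.ord (g • f) := by
  rw [ord_smul_place, inv_inv]

theorem mem_smul_place_iff (g : SemilinearAut K F) (v : Place K F) (f : F) :
    f ∈ (g • v).toValuationSubring ↔ g⁻¹ • f ∈ v.toValuationSubring := by
  rw [smul_toValuationSubring]
  exact ValuationSubring.mem_pointwise_smul_iff_inv_smul_mem

variable (φ : F →ₐ[K] F') (hφ : φ.toRingHom.IsIntegral)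
  {g : SemilinearAut K F} {g' : SemilinearAut K F'}

theorem mem_restrictAlong_iff (w : Place K F') (f : F) :
    f ∈ (w.restrictAlong φ hφ).toValuationSubring ↔ φ f ∈ w.toValuationSubring :=
  Iff.rfl

theorem restrictAlong_smul (h : IntertwinesAlong (φ : F →+* F') g g') (w : Place K F') :
    (g' • w).restrictAlong φ hφ = g • (w.restrictAlong φ hφ) := by
  ext1
  ext x
  rw [mem_restrictAlong_iff, mem_smul_place_iff, mem_smul_place_iff, mem_restrictAlong_iff]
  have := h.inv x
  rw [show φ x = (φ : F →+* F') x from rfl, this]
  rfl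

theorem ramificationIndexAlong_smul (h : IntertwinesAlong (φ : F →+* F') g g')
    (w : Place K F') :
    (g' • w).ramificationIndexAlong φ = w.ramificationIndexAlong φ := by
  have key : ∀ f : F, (g' • w).ord (φ f) = w.ord (φ (g⁻¹ • f)) := by
    intro f
    rw [ord_smul_place]
    have := h.inv f
    rw [show φ f = (φ : F →+* F') f from rfl, this]
    rfl
  unfold Place.ramificationIndexAlong Place.ramificationIndex
  congr 1
  ext n
  constructor
  · rintro ⟨hn, f, hf, hfn⟩
    refine ⟨hn, g⁻¹ • f, by simpa using hf, ?_⟩
    rw [← hfn]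
    exact (key f).symm
  · rintro ⟨hn, f, hf, hfn⟩
    refine ⟨hn, g • f, by simpa using hf, ?_⟩
    rw [← hfn]
    have := key (g • f)
    rw [inv_smul_smul] at this
    exact this

variable [HasPrincipalDivisors K F']

/-- Pullback of divisors is equivariant for intertwined semilinear automorphisms. -/
theorem pullbackAlong_smul (h : IntertwinesAlong (φ : F →+* F') g g') (D : Divisor K F) :
    Divisor.pullbackAlong φ hφ (g • D) = g' • Divisor.pullbackAlong φ hφ D := by
  ext w
  rw [Divisor.pullbackAlong_apply, divisor_smul_apply, divisor_smul_apply,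
    Divisor.pullbackAlong_apply, restrictAlong_smul φ hφ h.inv,
    ramificationIndexAlong_smul φ h.inv]

end

end Fermat.Agent.RED.GalEq
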