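import Fermat.Agent.RED.GalEq.Along
import Fermat.Agent.RED.FF.IsFF1

/-!
# RED / GalEq : a place reduction is not constant; equivariance on divisors
-/

set_option autoImplicit false

open AlgebraicCurve AlgebraicCurve.SemilinearAut ModularCurve

namespace Fermat.Agent.RED.GalEq

noncomputable section

variable {L : Type*} [Field L] [Algebra ℚ L] {A : ValuationSubring L}
variable {k : Type*} [Field k] {π : A →+* k} {N : ℕ}
variable {r : Place L (laurentBaseChange L (modularFunctionFieldFull N)) →
  Place k (modularFunctionFieldFullC k N)}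

theorem jqModC_mem_laurentBaseChange [NeZero N] :
    jqModC L ∈ laurentBaseChange L (modularFunctionFieldFull N) := by
  have : jqModC L = coeffEmb L (jqModC ℚ) := by rw [coeffEmb, coeffMap_jqModC]
  rw [this]
  exact coeffEmb_mem_laurentBaseChange L (jqModC_mem_full ℚ N)

theorem mapDomain_eq_single_of_const {α β : Type*} {r : α → β} (b : β) (h : ∀ a, r a = b)
    (D : α →₀ ℤ) : Finsupp.mapDomain r D = Finsupp.single b (D.sum fun _ n => n) := by
  induction D using Finsupp.induction_linear with
  | zero => simp
  | add D E hD hE =>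
    rw [Finsupp.mapDomain_add, hD, hE, Finsupp.sum_add_index' (by simp) (by simp),
      Finsupp.single_add]
  | single a n => rw [Finsupp.mapDomain_single, h, Finsupp.sum_single_index rfl]

/-- A place reduction is not constant, because `r_* div j = div j̄ ≠ 0`. -/
theorem exists_ne_of_isPlaceReduction [NeZero N] [IsAlgClosed L] [IsAlgClosed k]
    {x : laurentBaseChange L (modularFunctionFieldFull N)} (hx : IsSepParam L x)
    (hjb : IsSepParam k (⟨jqModC k, jqModC_mem_full k N⟩ : modularFunctionFieldFullC k N))
    (hr : IsPlaceReductionAlong A π N r) : ∃ P P', r P ≠ r P' := by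
  by_contra hcon
  push Not at hcon
  have hy : coeffMap A.subtype (jqModC A) ∈ laurentBaseChange L (modularFunctionFieldFull N) := by
    rw [coeffMap_jqModC]; exact jqModC_mem_laurentBaseChange
  have hyk : coeffMap π (jqModC A) ∈ modularFunctionFieldFullC k N := by
    rw [coeffMap_jqModC]; exact jqModC_mem_full k N
  have hne : coeffMap π (jqModC A) ≠ 0 := by
    rw [coeffMap_jqModC]; exact jqModC_ne_zero_of_nontrivial k
  set f : laurentBaseChange L (modularFunctionFieldFull N) :=
    ⟨coeffMap A.subtype (jqModC A), hy⟩ with hf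
  have hf0 : f ≠ 0 := by
    intro h0
    have := congrArg Subtype.val h0
    rw [hf] at this
    simp only [coeffMap_jqModC] at this
    exact jqModC_ne_zero_of_nontrivial L this
  have key := hr.2 (jqModC A) hy hyk hne (dv L f) (fun P => hx.dv_apply f P)
  obtain ⟨P₀⟩ := hx.nonempty_place
  have h0 : ∀ Q : Place k (modularFunctionFieldFullC k N),
      Q.ord (⟨coeffMap π (jqModC A), hyk⟩ : modularFunctionFieldFullC k N) = 0 := by
    intro Q
    rw [← key Q, mapDomain_eq_single_of_const (r P₀) (fun P => hcon P P₀), ← ES.cnt_eq_sum,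
      cnt_eq_zero_of_isSepParam hx _ (hx.isPrincipal_dv hf0), Finsupp.single_zero]
    rfl
  have e : (⟨coeffMap π (jqModC A), hyk⟩ : modularFunctionFieldFullC k N) =
      ⟨jqModC k, jqModC_mem_full k N⟩ := Subtype.ext (coeffMap_jqModC π)
  rw [e] at h0
  obtain ⟨c, hc⟩ := hjb.mem_range_of_forall_ord_nonneg (fun v => (h0 v).ge)
  apply hjb.transcendental
  rw [← hc]
  exact isAlgebraic_algebraMap c

variable {σ : L ≃ₐ[ℚ] L} {σA : A →+* A} {τ : k ≃+* k}

/-- Equivariance of `r_*` on all divisors. -/
theorem mapDomain_placeReduction_smul [NeZero N] [IsAlgClosed L] [IsAlgClosed k]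
    {x : laurentBaseChange L (modularFunctionFieldFull N)} (hx : IsSepParam L x)
    (hjb : IsSepParam k (⟨jqModC k, jqModC_mem_full k N⟩ : modularFunctionFieldFullC k N))
    (hr : IsPlaceReductionAlong A π N r) (hgen : PrincipalGeneratedByIntegral A π N)
    (hσ : Induces π σ σA τ) (D : Divisor L (laurentBaseChange L (modularFunctionFieldFull N))) :
    Finsupp.mapDomain r (arithmeticGalois (modularFunctionFieldFull N) σ • D) =
      coeffSemiC N τ • Finsupp.mapDomain r D := by
  have h := placeReduction_smul hx hr hgen hσ (exists_ne_of_isPlaceReduction hx hjb hr)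
  rw [divisor_smul_def, divisor_smul_def, ← Finsupp.mapDomain_comp, ← Finsupp.mapDomain_comp]
  congr 1
  funext P
  exact h P

/-- Equivariance of the reduction map on `Pic0`. -/
theorem reductionAlong_smul [NeZero N] [IsAlgClosed L] [IsAlgClosed k]
    {x : laurentBaseChange L (modularFunctionFieldFull N)} (hx : IsSepParam L x)
    (hjb : IsSepParam k (⟨jqModC k, jqModC_mem_full k N⟩ : modularFunctionFieldFullC k N))
    (h : ReductionInputsAlong A π N) (hσ : Induces π σ σA τ)
    (z : Pic0 L (laurentBaseChange L (modularFunctionFieldFull N))) :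
    reductionAlong A π N (σ • z) = coeffSemiC N τ • reductionAlong A π N z := by
  obtain ⟨D, rfl⟩ := Pic0.mk_surjective z
  rw [galois_smul_pic0_def, pic0_smul_mk, reductionAlong_mk h, reductionAlong_mk h, pic0_smul_mk]
  refine congrArg Pic0.mk (Subtype.ext ?_)
  rw [coe_reductionDegZeroAlong, coe_degZeroSMulHom, coe_degZeroSMulHom,
    coe_reductionDegZeroAlong]
  exact mapDomain_placeReduction_smul hx hjb h.choose_spec.1 h.choose_spec.2 hσ _

end

end Fermat.Agent.RED.GalEq
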