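import Mathlib
import Fermat.Prelude.Def_EllipticCurve_FrobeniusTrace

/-!
# RED / GalEq : the residue field of a valuation ring of an algebraically closed field

* `isAlgClosed_residueField` : it is algebraically closed;
* `charP_residueField` : it has characteristic `ℓ` if the valuation ring lies over `ℓ`;
* `decompHom` : the action of an element of the decomposition group on the valuation ring.
-/

set_option autoImplicit false

open Polynomial

namespace Fermat.Agent.RED.GalEq

noncomputable section

variable {L : Type*} [Field L]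

theorem isAlgClosed_residueField [IsAlgClosed L] (A : ValuationSubring L) :
    IsAlgClosed (IsLocalRing.ResidueField A) := by
  apply IsAlgClosed.of_exists_root
  intro p hp hirr
  have hl : p ∈ Polynomial.lifts (IsLocalRing.residue A) := by
    rw [Polynomial.lifts_iff_coeff_lifts]
    intro n
    exact IsLocalRing.residue_surjective _
  obtain ⟨P, hP, hdeg, hmonic⟩ := Polynomial.lifts_and_degree_eq_and_monic hl hp
  have hdeg' : (P.map A.subtype).degree ≠ 0 := by
    rw [Polynomial.degree_map_eq_of_injective A.subtype_injective, hdeg]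
    exact (Polynomial.degree_pos_of_irreducible hirr).ne'
  obtain ⟨x, hx⟩ := IsAlgClosed.exists_root (P.map A.subtype) hdeg'
  have hint : IsIntegral A x := by
    refine ⟨P, hmonic, ?_⟩
    rw [Polynomial.IsRoot.def, Polynomial.eval_map] at hx
    exact hx
  obtain ⟨a, rfl⟩ := IsIntegrallyClosed.isIntegral_iff.mp hint
  refine ⟨IsLocalRing.residue A a, ?_⟩
  rw [← hP, Polynomial.eval_map, Polynomial.eval₂_hom]
  have h0 : P.eval a = 0 := by
    apply A.subtype_injective
    rw [map_zero, ← Polynomial.eval₂_hom, ← Polynomial.eval_map]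
    exact hx
  rw [h0, map_zero]

theorem natCast_residue_eq_zero {A : ValuationSubring L} {ℓ : ℕ} (hA : A.LiesOverPrime ℓ) :
    (ℓ : IsLocalRing.ResidueField A) = 0 := by
  obtain ⟨ha, hm⟩ := ValuationSubring.mem_nonunits_iff_exists_mem_maximalIdeal.mp hA
  have h1 : (⟨(ℓ : L), ha⟩ : A) = (ℓ : A) := Subtype.ext (by simp)
  rw [h1] at hm
  have := (IsLocalRing.residue_eq_zero_iff _).mpr hm
  rwa [map_natCast] at this

theorem charP_residueField {A : ValuationSubring L} {ℓ : ℕ} (hℓ : ℓ.Prime)
    (hA : A.LiesOverPrime ℓ) : CharP (IsLocalRing.ResidueField A) ℓ :=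
  (CharP.charP_iff_prime_eq_zero hℓ).mpr (natCast_residue_eq_zero hA)

variable {K : Type*} [Field K] [Algebra K L]

/-- The endomorphism of `A` induced by an element of the decomposition group. -/
def decompHom (A : ValuationSubring L) (σ : L ≃ₐ[K] L) (hσ : σ ∈ A.decompositionSubgroup K) :
    A →+* A :=
  MulSemiringAction.toRingHom (A.decompositionSubgroup K) A ⟨σ, hσ⟩

@[simp]
theorem coe_decompHom (A : ValuationSubring L) (σ : L ≃ₐ[K] L)
    (hσ : σ ∈ A.decompositionSubgroup K) (a : A) : (decompHom A σ hσ a : L) = σ a := rfl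

theorem residue_decompHom (A : ValuationSubring L) (σ : L ≃ₐ[K] L)
    (hσ : σ ∈ A.decompositionSubgroup K) (a : A) :
    IsLocalRing.residue A (decompHom A σ hσ a) =
      (⟨σ, hσ⟩ : A.decompositionSubgroup K) • IsLocalRing.residue A a := rfl

end

end Fermat.Agent.RED.GalEq
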