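import Fermat.Agent.RED.GalEq.HeckePrin

/-!
# RED / GalEq : the Eichler-Shimura congruence on divisors of degree zero
-/

set_option autoImplicit false

open AlgebraicCurve ModularCurve

namespace Fermat.Agent.RED.GalEq

noncomputable section

open Fermat.Agent.GAL.HeckeInputs Fermat.Agent.RED.TorsES

variable {ℓ : ℕ} [Fact ℓ.Prime] (N c : ℕ) [NeZero N] [NeZero c] {A : ValuationSubring Kb}
variable {k : Type*} [Field k] [CharP k ℓ] [PerfectRing k ℓ] {π : A →+* k}
variable (r : Place Kb (modularFunctionFieldBar (N * c)) →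
  Place k (modularFunctionFieldFullC k (N * c)))

/-- `r_* B^* T_ℓ`. -/
def PhiOne (ℓ : ℕ) [NeZero ℓ] : Divisor Kb (modularFunctionFieldBar N) →+
    Divisor k (modularFunctionFieldFullC k (N * c)) :=
  (Finsupp.mapDomain.addMonoidHom r).comp ((BDiv N c).comp (TDiv N ℓ))

/-- `(Fr + Ver) r_* B^*`. -/
def PhiTwo (ℓ : ℕ) [Fact ℓ.Prime] [CharP k ℓ] [PerfectRing k ℓ] :
    Divisor Kb (modularFunctionFieldBar N) →+ Divisor k (modularFunctionFieldFullC k (N * c)) :=
  (FrDiv k (N * c) ℓ + VerDiv k (N * c) ℓ).comp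
    ((Finsupp.mapDomain.addMonoidHom r).comp (BDiv N c))

theorem PhiOne_apply (D : Divisor Kb (modularFunctionFieldBar N)) :
    PhiOne N c r ℓ D = Finsupp.mapDomain r (BDiv N c (TDiv N ℓ D)) := rfl

theorem PhiTwo_apply (D : Divisor Kb (modularFunctionFieldBar N)) :
    PhiTwo N c r ℓ D = FrDiv k (N * c) ℓ (Finsupp.mapDomain r (BDiv N c D)) +
        VerDiv k (N * c) ℓ (Finsupp.mapDomain r (BDiv N c D)) := rfl

variable {r}

theorem Phi_eq_of_mem_principal (hℓN : ¬ ℓ ∣ N) (hr : IsPlaceReductionAlong A π (N * c) r)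
    (hmem : ∀ y : LaurentSeries A, coeffMap A.subtype y ∈ modularFunctionFieldBar (N * c) →
      coeffMap π y ∈ modularFunctionFieldFullC k (N * c))
    (hgen : PrincipalGeneratedByIntegral A π N)
    (D : Divisor Kb (modularFunctionFieldBar N))
    (hD : D ∈ Divisor.principal (K := Kb) (F := modularFunctionFieldBar N)) :
    PhiOne N c r ℓ D = PhiTwo N c r ℓ D := by
  have hD' := hgen hD
  clear hD
  induction hD' using AddSubgroup.closure_induction with
  | mem E hE => exact hecke_of_mem_integral N c hℓN hr hmem hE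
  | zero => rw [map_zero, map_zero]
  | add E E' _ _ hE hE' => rw [map_add, map_add, hE, hE']
  | neg E _ hE => rw [map_neg, map_neg, hE]

theorem PhiOne_nonneg (P : Place Kb (modularFunctionFieldBar N)) :
    0 ≤ PhiOne N c r ℓ (Finsupp.single P 1) :=
  mapDomain_nonneg r (pullbackAlong_nonneg (heckeBetaBar Kb N c) (heckeBetaBarIntegral N c)
    (correspondence_nonneg (heckeBetaBar Kb N ℓ) (heckeAlphaBar Kb N ℓ)
      (heckeBetaBarIntegral N ℓ) (heckeAlphaBarIntegral N ℓ)
      (single_nonneg_galEq P zero_le_one)))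

theorem PhiTwo_nonneg (P : Place Kb (modularFunctionFieldBar N)) :
    0 ≤ PhiTwo N c r ℓ (Finsupp.single P 1) := by
  have h : 0 ≤ Finsupp.mapDomain r (BDiv N c (Finsupp.single P 1)) :=
    mapDomain_nonneg r (pullbackAlong_nonneg (heckeBetaBar Kb N c) (heckeBetaBarIntegral N c)
      (single_nonneg_galEq P zero_le_one))
  rw [PhiTwo_apply]
  exact add_nonneg (FrDiv_nonneg k (N * c) ℓ h) (VerDiv_nonneg k (N * c) ℓ h)

theorem degree_PhiOne (hdeg : ∀ P, (r P).deg = P.deg)
    (D : Divisor Kb (modularFunctionFieldBar N)) :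
    Divisor.degree (PhiOne N c r ℓ D) =
      (finrankAlong Kb (heckeBetaBar Kb N c) : ℤ) *
        ((finrankAlong Kb (heckeBetaBar Kb N ℓ) : ℤ) * Divisor.degree D) := by
  rw [PhiOne_apply, degree_mapDomain_of_deg_eq hdeg,
    Divisor.degree_pullbackAlong _ _ (fundamentalIdentityAlong_beta N c)]
  congr 1
  exact Divisor.degree_correspondence _ _ _ _ (fundamentalIdentityAlong_beta N ℓ) D

theorem degree_PhiTwo (hdeg : ∀ P, (r P).deg = P.deg)
    (D : Divisor Kb (modularFunctionFieldBar N)) :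
    Divisor.degree (PhiTwo N c r ℓ D) =
      (1 + (ℓ : ℤ)) * ((finrankAlong Kb (heckeBetaBar Kb N c) : ℤ) * Divisor.degree D) := by
  rw [PhiTwo_apply, map_add, degree_FrDiv, degree_VerDiv, degree_mapDomain_of_deg_eq hdeg,
    Divisor.degree_pullbackAlong _ _ (fundamentalIdentityAlong_beta N c)]
  ring

/-- **The Eichler-Shimura congruence on divisors of degree zero.** -/
theorem Phi_eq_of_degree_eq_zero [IsAlgClosed k] (hℓNc : ¬ ℓ ∣ N * c)
    (hπ : Function.Surjective π) (hr : IsPlaceReductionAlong A π (N * c) r)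
    (D : Divisor Kb (modularFunctionFieldBar N)) (hD : Divisor.degree D = 0) :
    PhiOne N c r ℓ D = PhiTwo N c r ℓ D := by
  have hℓN : ¬ ℓ ∣ N := fun h => hℓNc (h.mul_right c)
  by_cases hne : Nonempty (Place Kb (modularFunctionFieldBar N))
  swap
  · have : D = 0 := by
      ext P
      exact absurd ⟨P⟩ hne
    rw [this, map_zero, map_zero]
  obtain ⟨P₀⟩ := hne
  have hx := isSepParam_jF_galEq N
  have hxk := Cusp.isSepParam_jb (N * c) k ℓ hℓNc
  have hmem := coeffMap_mem_fullC_of_integral π hπ (card_Q_pos (N * c))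
    (exists_isCoreExt (N * c) ℓ hℓNc).choose_spec (L := Kb) (A := A)
  have hgen : PrincipalGeneratedByIntegral A π N :=
    principalGeneratedByIntegral π hπ (card_Q_pos N) (exists_isCoreExt N ℓ hℓN).choose_spec
  have hs : ∀ P : Place Kb (modularFunctionFieldBar N),
      Divisor.degree (Finsupp.single P (1 : ℤ)) = 1 := fun P => by
    rw [Divisor.degree_single, hx.deg_eq_one P]; simp
  set d₁ : ℤ := (finrankAlong Kb (heckeBetaBar Kb N c) : ℤ) *
        ((finrankAlong Kb (heckeBetaBar Kb N ℓ) : ℤ) * 1) with hd₁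
  set d₂ : ℤ := (1 + (ℓ : ℤ)) * ((finrankAlong Kb (heckeBetaBar Kb N c) : ℤ) * 1) with hd₂
  refine hom_eq_of_agree_on_principal_of_cnt_eq_zero (hasEffRep_of_isSepParam hx P₀)
    (cnt_eq_zero_of_isSepParam hx) _ _ (max d₁ d₂) (PhiOne_nonneg N c) (fun P => ?_)
    (PhiTwo_nonneg N c) (fun P => ?_) (Phi_eq_of_mem_principal N c hℓN hr hmem hgen) D ?_
  · rw [cnt_eq_degree_of_isSepParam hxk, degree_PhiOne N c hr.1, hs]
    exact le_max_left _ _
  · rw [cnt_eq_degree_of_isSepParam hxk, degree_PhiTwo N c hr.1, hs]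
    exact le_max_right _ _
  · rw [cnt_eq_degree_of_isSepParam hx, hD]

end

end Fermat.Agent.RED.GalEq
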