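import Fermat.Prelude.Def_ModularCurve_ReductionModL
import Fermat.Agent.RED.GalEq.Pull
import Fermat.Agent.RED.ES.Unique
import Fermat.Agent.RED.Frobk.Basic
import Fermat.Agent.RED.FF.Riemann

/-!
# RED / GalEq : a place reduction (in the sense of the Prelude) is equivariant

Let `r` be a place reduction along `π : A →+* k` (`IsPlaceReductionAlong`), with
`PrincipalGeneratedByIntegral`.  If `σ : L ≃ₐ[ℚ] L` preserves `A` and induces `τ` on `k`, then
`r (σ • P) = τ • r P`.
-/

set_option autoImplicit false

open AlgebraicCurve AlgebraicCurve.SemilinearAut ModularCurve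

namespace Fermat.Agent.RED.GalEq

noncomputable section

section EffRep

variable {K F : Type*} [Field K] [Field F] [Algebra K F] {x : F}

theorem cnt_eq_degree_of_isSepParam [IsAlgClosed K] (hx : IsSepParam K x) (D : Divisor K F) :
    ES.cnt D = Divisor.degree D :=
  ES.cnt_eq_degree hx.deg_eq_one D

theorem cnt_eq_zero_of_isSepParam [IsAlgClosed K] (hx : IsSepParam K x) (D : Divisor K F)
    (hD : D ∈ Divisor.principal (K := K) (F := F)) : ES.cnt D = 0 := by
  rw [cnt_eq_degree_of_isSepParam hx]
  exact hx.degree_eq_zero_of_isPrincipal hD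

theorem hasEffRep_of_isSepParam [IsAlgClosed K] (hx : IsSepParam K x) (P₀ : Place K F) :
    ES.HasEffRep K F (gR K F).toNat P₀ := by
  intro D hD
  rw [cnt_eq_degree_of_isSepParam hx] at hD
  have hg := hx.gR_nonneg
  set D' : Divisor K F := D + Finsupp.single P₀ (((gR K F).toNat : ℕ) : ℤ) with hD'
  have hdeg : Divisor.degree D' = gR K F := by
    rw [hD', map_add, hD, hx.degree_single, Int.toNat_of_nonneg hg, zero_add]
  obtain ⟨f, hfm, hf⟩ := hx.exists_ne_zero_mem_L (A := D') hdeg.ge
  rw [mem_L_iff_of_ne_zero hf] at hfm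
  refine ⟨D' + dv K f, fun v => ?_, ?_⟩
  · have := hfm v
    rw [Finsupp.add_apply, hx.dv_apply]
    simp only [Finsupp.coe_zero, Pi.zero_apply]
    omega
  · have : D' - (D' + dv K f) = -dv K f := by abel
    rw [this]
    exact neg_mem (hx.isPrincipal_dv hf)

end EffRep

variable {L : Type*} [Field L] [Algebra ℚ L] {A : ValuationSubring L}
variable {k : Type*} [Field k] {π : A →+* k} {N : ℕ}
variable {r : Place L (laurentBaseChange L (modularFunctionFieldFull N)) →
  Place k (modularFunctionFieldFullC k N)}

/-- `σ` preserves `A` (through `σA`) and induces `τ` on the residue field. -/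
structure Induces (π : A →+* k) (σ : L ≃ₐ[ℚ] L) (σA : A →+* A) (τ : k ≃+* k) : Prop where
  coe : ∀ a : A, (σA a : L) = σ a
  res : ∀ a : A, π (σA a) = τ (π a)

variable {σ : L ≃ₐ[ℚ] L} {σA : A →+* A} {τ : k ≃+* k}

theorem mapDomain_smul_of_mem_integral (hr : IsPlaceReductionAlong A π N r)
    (hσ : Induces π σ σA τ)
    {D : Divisor L (laurentBaseChange L (modularFunctionFieldFull N))}
    (hD : D ∈ integralPrincipalDivisors A π N) :
    Finsupp.mapDomain r (arithmeticGalois (modularFunctionFieldFull N) σ • D) =
      coeffSemiC N τ • Finsupp.mapDomain r D := by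
  obtain ⟨y, hy, hyk, hne, hDy⟩ := hD
  set y' : LaurentSeries A := coeffMap σA y with hy'def
  have e1 : coeffMap A.subtype y' = coeffMap (σ : L →+* L) (coeffMap A.subtype y) := by
    rw [hy'def, coeffMap_coeffMap, coeffMap_coeffMap]
    exact coeffMap_congr (RingHom.ext fun a => hσ.coe a) _
  have e2 : coeffMap π y' = coeffMap (τ : k →+* k) (coeffMap π y) := by
    rw [hy'def, coeffMap_coeffMap, coeffMap_coeffMap]
    exact coeffMap_congr (RingHom.ext fun a => hσ.res a) _
  have hy' : coeffMap A.subtype y' ∈ laurentBaseChange L (modularFunctionFieldFull N) := by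
    rw [e1]; exact coeffMap_mem_laurentBaseChange σ hy
  have hyk' : coeffMap π y' ∈ modularFunctionFieldFullC k N := by
    rw [e2]; exact coeffMap_mem_fullC N _ hyk
  have E1 : (⟨coeffMap A.subtype y', hy'⟩ : laurentBaseChange L (modularFunctionFieldFull N)) =
      arithmeticGalois (modularFunctionFieldFull N) σ • ⟨coeffMap A.subtype y, hy⟩ :=
    Subtype.ext e1
  have E2 : (⟨coeffMap π y', hyk'⟩ : modularFunctionFieldFullC k N) =
      coeffSemiC N τ • ⟨coeffMap π y, hyk⟩ := Subtype.ext e2
  have hne' : coeffMap π y' ≠ 0 := by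
    intro h0
    have h1 : (⟨coeffMap π y', hyk'⟩ : modularFunctionFieldFullC k N) = 0 := Subtype.ext h0
    rw [E2, smul_eq_zero_iff_eq] at h1
    exact hne (congrArg Subtype.val h1)
  ext Q
  rw [hr.2 y' hy' hyk' hne' (arithmeticGalois (modularFunctionFieldFull N) σ • D) (fun P => by
    rw [divisor_smul_apply, hDy, ord_inv_smul_place, E1]) Q, E2, divisor_smul_apply,
    hr.2 y hy hyk hne D hDy, ord_inv_smul_place]

theorem mapDomain_smul_of_mem_principal (hr : IsPlaceReductionAlong A π N r)
    (hgen : PrincipalGeneratedByIntegral A π N) (hσ : Induces π σ σA τ)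
    {D : Divisor L (laurentBaseChange L (modularFunctionFieldFull N))}
    (hD : D ∈ Divisor.principal (K := L)
      (F := laurentBaseChange L (modularFunctionFieldFull N))) :
    Finsupp.mapDomain r (arithmeticGalois (modularFunctionFieldFull N) σ • D) =
      coeffSemiC N τ • Finsupp.mapDomain r D := by
  have hD' := hgen hD
  clear hD
  induction hD' using AddSubgroup.closure_induction with
  | mem E hE => exact mapDomain_smul_of_mem_integral hr hσ hE
  | zero => rw [smul_zero, Finsupp.mapDomain_zero, smul_zero]
  | add E E' _ _ hE hE' =>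
    rw [smul_add, Finsupp.mapDomain_add, Finsupp.mapDomain_add, smul_add, hE, hE']
  | neg E _ hE =>
    rw [smul_neg, ← Finsupp.mapDomain.addMonoidHom_apply, map_neg,
      Finsupp.mapDomain.addMonoidHom_apply, hE, ← Finsupp.mapDomain.addMonoidHom_apply r (-E),
      map_neg, Finsupp.mapDomain.addMonoidHom_apply, smul_neg]

/-- Equivariance of a place reduction, provided that it is not constant. -/
theorem placeReduction_smul [IsAlgClosed L]
    {x : laurentBaseChange L (modularFunctionFieldFull N)} (hx : IsSepParam L x)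
    (hr : IsPlaceReductionAlong A π N r) (hgen : PrincipalGeneratedByIntegral A π N)
    (hσ : Induces π σ σA τ) (hnc : ∃ P P', r P ≠ r P')
    (P : Place L (laurentBaseChange L (modularFunctionFieldFull N))) :
    r (arithmeticGalois (modularFunctionFieldFull N) σ • P) = coeffSemiC N τ • r P := by
  set γ := arithmeticGalois (modularFunctionFieldFull N) σ with hγ
  set γb := coeffSemiC N τ with hγb
  set Φ₁ : Divisor L (laurentBaseChange L (modularFunctionFieldFull N)) →+
      Divisor k (modularFunctionFieldFullC k N) :=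
    (Finsupp.mapDomain.addMonoidHom r).comp (DistribSMul.toAddMonoidHom _ γ) with hΦ₁
  set Φ₂ : Divisor L (laurentBaseChange L (modularFunctionFieldFull N)) →+
      Divisor k (modularFunctionFieldFullC k N) :=
    (DistribSMul.toAddMonoidHom _ γb).comp (Finsupp.mapDomain.addMonoidHom r) with hΦ₂
  have h1 : ∀ P, Φ₁ (Finsupp.single P 1) = Finsupp.single (r (γ • P)) 1 := by
    intro P
    show Finsupp.mapDomain r (γ • (Finsupp.single P 1 :
      Divisor L (laurentBaseChange L (modularFunctionFieldFull N)))) = _
    rw [smul_single, Finsupp.mapDomain_single]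
  have h2' : ∀ P, Φ₂ (Finsupp.single P 1) = Finsupp.single (γb • r P) 1 := by
    intro P
    show γb • (Finsupp.mapDomain r (Finsupp.single P 1 :
      Divisor L (laurentBaseChange L (modularFunctionFieldFull N))) :
        Divisor k (modularFunctionFieldFullC k N)) = _
    rw [Finsupp.mapDomain_single, smul_single]
  have hpos : ∀ Q : Place k (modularFunctionFieldFullC k N),
      (0 : Divisor k (modularFunctionFieldFullC k N)) ≤ Finsupp.single Q 1 := by
    intro Q Q'
    classical
    rw [Finsupp.single_apply]
    split_ifs <;> simp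
  have := ES.hom_eq_of_agree_on_principal (hasEffRep_of_isSepParam hx P)
    (cnt_eq_zero_of_isSepParam hx) Φ₁ Φ₂ 1
    (fun P => by rw [h1]; exact hpos _) (fun P => by rw [h1, ES.cnt_single])
    (fun P => by rw [h2']; exact hpos _) (fun P => by rw [h2', ES.cnt_single])
    (fun D hD => mapDomain_smul_of_mem_principal hr hgen hσ hD)
    (fun Q => by
      obtain ⟨P₁, P₂, hne⟩ := hnc
      by_cases hQ : γb • r P₁ = Q
      · refine ⟨P₂, ?_⟩
        rw [h2']
        refine Finsupp.single_eq_of_ne fun h => hne ?_
        exact MulAction.injective γb (hQ.trans h)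
      · refine ⟨P₁, ?_⟩
        rw [h2']
        exact Finsupp.single_eq_of_ne fun h => hQ h.symm)
  have h3 := DFunLike.congr_fun this (Finsupp.single P 1)
  rw [h1, h2'] at h3
  exact Finsupp.single_left_injective one_ne_zero h3

end

end Fermat.Agent.RED.GalEq
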