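import Fermat.Agent.RED.ES.Unique

/-!
# RED / GalEq : Lemma U on divisors of degree zero

Two homomorphisms `Div F → Div Fb` which send places to effective divisors of bounded size and
agree on principal divisors agree on all divisors with `cnt = 0`.  (No "avoidance" hypothesis and
no equality of the sizes is needed.)
-/

set_option autoImplicit false

open AlgebraicCurve

namespace Fermat.Agent.RED.GalEq

noncomputable section

open Fermat.Agent.RED.ES

variable {L F : Type*} [Field L] [Field F] [Algebra L F]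
variable {k Fb : Type*} [Field k] [Field Fb] [Algebra k Fb]

/-- a homomorphism `Div F → ℤ` which takes the same value on all places kills `cnt = 0`. -/
theorem hom_eq_zero_of_const (χ : Divisor L F →+ ℤ)
    (hχ : ∀ P P' : Place L F, χ (Finsupp.single P 1) = χ (Finsupp.single P' 1))
    (D : Divisor L F) (hD : cnt D = 0) : χ D = 0 := by
  by_cases hne : Nonempty (Place L F)
  · obtain ⟨P₀⟩ := hne
    rw [hom_eq_sum χ D]
    have : (D.sum fun P n => n * χ (Finsupp.single P 1)) =
        (D.sum fun _ n => n) * χ (Finsupp.single P₀ 1) := by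
      rw [Finsupp.sum, Finsupp.sum, Finset.sum_mul]
      exact Finset.sum_congr rfl fun P _ => by rw [hχ P P₀]
    rw [this, ← cnt_eq_sum, hD, zero_mul]
  · have : D = 0 := by
      ext P
      exact absurd ⟨P⟩ hne
    rw [this, map_zero]

/-- **Lemma U in degree zero**. -/
theorem hom_eq_of_agree_on_principal_of_cnt_eq_zero {g : ℕ} {P₀ : Place L F}
    (h2 : HasEffRep L F g P₀)
    (hprin : ∀ D ∈ Divisor.principal (K := L) (F := F), cnt D = 0)
    (Φ₁ Φ₂ : Divisor L F →+ Divisor k Fb) (d : ℤ)
    (h1eff : ∀ P, 0 ≤ Φ₁ (Finsupp.single P 1)) (h1cnt : ∀ P, cnt (Φ₁ (Finsupp.single P 1)) ≤ d)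
    (h2eff : ∀ P, 0 ≤ Φ₂ (Finsupp.single P 1)) (h2cnt : ∀ P, cnt (Φ₂ (Finsupp.single P 1)) ≤ d)
    (hagree : ∀ D ∈ Divisor.principal (K := L) (F := F), Φ₁ D = Φ₂ D)
    (D : Divisor L F) (hD : cnt D = 0) : Φ₁ D = Φ₂ D := by
  ext Q
  set χ : Divisor L F →+ ℤ := (Finsupp.applyAddHom Q).comp (Φ₁ - Φ₂) with hχ
  have hχa : ∀ D, χ D = (Φ₁ D - Φ₂ D) Q := fun D => rfl
  have hconst := hom_const_of_bounded h2 hprin χ
    (fun D hD => by rw [hχa, hagree D hD, sub_self]; rfl) d
    (fun P => by
      rw [hχa, Finsupp.sub_apply, abs_le]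
      have a1 := h1eff P Q
      have a2 := h2eff P Q
      have a3 := (apply_le_cnt (h1eff P) Q).trans (h1cnt P)
      have a4 := (apply_le_cnt (h2eff P) Q).trans (h2cnt P)
      simp only [Finsupp.coe_zero, Pi.zero_apply] at a1 a2
      constructor <;> linarith)
  have := hom_eq_zero_of_const χ hconst D hD
  rw [hχa, Finsupp.sub_apply, sub_eq_zero] at this
  exact this

end

end Fermat.Agent.RED.GalEq
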