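import Fermat.Prelude.Def_AlgebraicCurve_Correspondence

/-!
# RED / GalEq : effectivity of pull-backs, push-forwards and images of effective divisors
-/

set_option autoImplicit false

open AlgebraicCurve

namespace Fermat.Agent.RED.GalEq

noncomputable section

variable {K F F' : Type*} [Field K] [Field F] [Field F'] [Algebra K F] [Algebra K F']

theorem single_nonneg_galEq {α : Type*} (a : α) {n : ℤ} (hn : 0 ≤ n) :
    (0 : α →₀ ℤ) ≤ Finsupp.single a n := by
  classical
  intro b
  rw [Finsupp.single_apply]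
  split_ifs
  · simpa using hn
  · simp

/-- an additive map between groups of finitely supported functions which sends the `single a n`,
`n ≥ 0`, to effective elements preserves effectivity. -/
theorem hom_nonneg_of_single {α β : Type*} (Φ : (α →₀ ℤ) →+ (β →₀ ℤ))
    (h : ∀ (a : α) (n : ℤ), 0 ≤ n → 0 ≤ Φ (Finsupp.single a n)) {D : α →₀ ℤ} (hD : 0 ≤ D) :
    0 ≤ Φ D := by
  conv_rhs => rw [← Finsupp.sum_single D]
  rw [Finsupp.sum, map_sum]
  exact Finset.sum_nonneg fun a _ => h a _ (hD a)

theorem mapDomain_nonneg {α β : Type*} (r : α → β) {D : α →₀ ℤ} (hD : 0 ≤ D) :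
    0 ≤ Finsupp.mapDomain r D :=
  hom_nonneg_of_single (Finsupp.mapDomain.addMonoidHom r)
    (fun a n hn => by
      rw [Finsupp.mapDomain.addMonoidHom_apply, Finsupp.mapDomain_single]
      exact single_nonneg_galEq _ hn) hD

theorem pullbackAlong_nonneg [HasPrincipalDivisors K F'] (φ : F →ₐ[K] F')
    (hφ : φ.toRingHom.IsIntegral) {D : Divisor K F} (hD : 0 ≤ D) :
    0 ≤ Divisor.pullbackAlong φ hφ D := by
  intro w
  rw [Divisor.pullbackAlong_apply]
  exact mul_nonneg (Int.natCast_nonneg _) (hD _)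

theorem pushforwardAlong_nonneg (φ : F →ₐ[K] F') (hφ : φ.toRingHom.IsIntegral)
    {D : Divisor K F'} (hD : 0 ≤ D) : 0 ≤ Divisor.pushforwardAlong φ hφ D :=
  hom_nonneg_of_single (Divisor.pushforwardAlong φ hφ)
    (fun a n hn => by
      rw [Divisor.pushforwardAlong_single]
      exact single_nonneg_galEq _ (mul_nonneg hn (Int.natCast_nonneg _))) hD

theorem correspondence_nonneg [HasPrincipalDivisors K F'] (φ ψ : F →ₐ[K] F')
    (hφ : φ.toRingHom.IsIntegral) (hψ : ψ.toRingHom.IsIntegral) {D : Divisor K F} (hD : 0 ≤ D) :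
    0 ≤ Divisor.correspondence φ ψ hφ hψ D :=
  pushforwardAlong_nonneg ψ hψ (pullbackAlong_nonneg φ hφ hD)

end

end Fermat.Agent.RED.GalEq
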