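import Fermat.Agent.RED.GalEq.Bounded
import Fermat.Agent.RED.GalEq.Eff
import Fermat.Agent.RED.GalEq.Along
import Fermat.Agent.RED.ES.Norm
import Fermat.Agent.RED.TorsESAbs
import Fermat.Agent.GAL.HeckeInputs
import Fermat.Agent.RED.Gauss.Bridge
import Fermat.Agent.RED.Cusp.Final
import Fermat.Agent.RED.S37.GalEq

/-!
# RED / GalEq : the Eichler-Shimura congruence on divisors

`r_* B^* T_ℓ D = (Fr + Ver) r_* B^* D` for principal divisors `D` of `F_N`
(`B : f(q) ↦ f(q^c)`, `r` a place reduction at level `N c`), and then for all divisors of degree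
zero by Lemma U.
-/

set_option autoImplicit false

open AlgebraicCurve ModularCurve

namespace Fermat.Agent.RED.GalEq

noncomputable section

open Fermat.Agent.GAL.HeckeInputs Fermat.Agent.RED.TorsES

variable {ℓ : ℕ} [Fact ℓ.Prime] (N c : ℕ) [NeZero N] [NeZero c] {A : ValuationSubring Kb}
variable {k : Type*} [Field k] [CharP k ℓ] [PerfectRing k ℓ] {π : A →+* k}
variable {r : Place Kb (modularFunctionFieldBar (N * c)) →
  Place k (modularFunctionFieldFullC k (N * c))}

/-- `B^*` on divisors. -/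
abbrev BDiv : Divisor Kb (modularFunctionFieldBar N) →+
    Divisor Kb (modularFunctionFieldBar (N * c)) :=
  Divisor.pullbackAlong (heckeBetaBar Kb N c) (heckeBetaBarIntegral N c)

/-- `T_ℓ` on divisors. -/
abbrev TDiv (ℓ : ℕ) [NeZero ℓ] : Divisor Kb (modularFunctionFieldBar N) →+
    Divisor Kb (modularFunctionFieldBar N) :=
  heckeDivBar (heckeAlphaBarIntegral N ℓ) (heckeBetaBarIntegral N ℓ)

theorem hecke_of_mem_integral (hℓN : ¬ ℓ ∣ N) (hr : IsPlaceReductionAlong A π (N * c) r)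
    (hmem : ∀ y : LaurentSeries A, coeffMap A.subtype y ∈ modularFunctionFieldBar (N * c) →
      coeffMap π y ∈ modularFunctionFieldFullC k (N * c))
    {D : Divisor Kb (modularFunctionFieldBar N)} (hD : D ∈ integralPrincipalDivisors A π N) :
    Finsupp.mapDomain r (BDiv N c (TDiv N ℓ D)) =
      FrDiv k (N * c) ℓ (Finsupp.mapDomain r (BDiv N c D)) +
        VerDiv k (N * c) ℓ (Finsupp.mapDomain r (BDiv N c D)) := by
  obtain ⟨y₀, hy, -, hne, hDy⟩ := hD
  set y : modularFunctionFieldBar N := ⟨coeffMap A.subtype y₀, hy⟩ with hydef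
  have hy0 : y ≠ 0 := by
    intro h0
    have h1 : coeffMap A.subtype y₀ = 0 := congrArg Subtype.val h0
    have h2 : y₀ = 0 := coeffMap_injective _ A.subtype_injective (by rw [h1, map_zero])
    exact hne (by rw [h2, map_zero])
  have hdiv : IsDiv 1 D y := ⟨hy0, fun P => by rw [one_mul, hDy]⟩
  -- the norm
  obtain ⟨z₀, hz₀, hz₀π⟩ := ES.norm_congruence N ℓ Fact.out hℓN A π y₀ hy
  have hT : IsDiv 1 (TDiv N ℓ D) (normAlong (heckeAlphaBar Kb N ℓ) (heckeBetaBar Kb N ℓ y)) :=
    hdiv.correspondence _ _ _ _ (finiteAlong_alpha N ℓ) (normFormulaAlong_alpha N ℓ)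
  have hBT := hT.pullbackAlong (heckeBetaBar Kb N c) (heckeBetaBarIntegral N c)
  have hB := hdiv.pullbackAlong (heckeBetaBar Kb N c) (heckeBetaBarIntegral N c)
  -- integral models at level `N c`
  set y₁ : LaurentSeries A := qExpand A c y₀ with hy₁
  set z₁ : LaurentSeries A := qExpand A c z₀ with hz₁
  have ey₁ : coeffMap A.subtype y₁ = ((heckeBetaBar Kb N c y : modularFunctionFieldBar (N * c)) :
      LaurentSeries Kb) := by
    rw [hy₁, coeffMap_qExpand, coe_heckeBetaBar]
  have ez₁ : coeffMap A.subtype z₁ = ((heckeBetaBar Kb N c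
      (normAlong (heckeAlphaBar Kb N ℓ) (heckeBetaBar Kb N ℓ y)) :
        modularFunctionFieldBar (N * c)) : LaurentSeries Kb) := by
    rw [hz₁, coeffMap_qExpand, coe_heckeBetaBar, hz₀]
    rfl
  have hy₁m : coeffMap A.subtype y₁ ∈ modularFunctionFieldBar (N * c) := by
    rw [ey₁]; exact SetLike.coe_mem _
  have hz₁m : coeffMap A.subtype z₁ ∈ modularFunctionFieldBar (N * c) := by
    rw [ez₁]; exact SetLike.coe_mem _
  have hy₁k := hmem y₁ hy₁m
  have hz₁k := hmem z₁ hz₁m
  set u : modularFunctionFieldFullC k (N * c) := ⟨coeffMap π y₁, hy₁k⟩ with hu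
  have hu0' : coeffMap π y₁ ≠ 0 := by
    rw [hy₁, coeffMap_qExpand]
    intro h0
    exact hne (qExpand_injective (R := k) c (by rw [h0, map_zero]))
  have hu0 : u ≠ 0 := fun h0 => hu0' (congrArg Subtype.val h0)
  have ez : (⟨coeffMap π z₁, hz₁k⟩ : modularFunctionFieldFullC k (N * c)) =
      verC k (N * c) ℓ u * (frobC k (N * c) ℓ • u) := by
    apply Subtype.ext
    show coeffMap π z₁ = qExpand k ℓ (coeffMap π y₁) * coeffMap (frobenius k ℓ) (coeffMap π y₁)
    rw [hz₁, coeffMap_qExpand, hz₀π, map_mul, hy₁, coeffMap_qExpand, qExpand_qExpand,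
      qExpand_qExpand, coeffMap_qExpand, qExpand_congr (mul_comm c ℓ)]
  have hv0 : verC k (N * c) ℓ u ≠ 0 := by
    rw [Ne, map_eq_zero]; exact hu0
  have hf0 : frobC k (N * c) ℓ • u ≠ 0 := by
    rw [Ne, smul_eq_zero_iff_eq]; exact hu0
  have hz0' : coeffMap π z₁ ≠ 0 := by
    intro h0
    have : (⟨coeffMap π z₁, hz₁k⟩ : modularFunctionFieldFullC k (N * c)) = 0 := Subtype.ext h0
    rw [ez] at this
    exact mul_ne_zero hv0 hf0 this
  have h1 : ∀ Q, Finsupp.mapDomain r (BDiv N c D) Q = Q.ord u :=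
    hr.2 y₁ hy₁m hy₁k hu0' (BDiv N c D) (fun P => by
      have := hB.2 P
      rw [one_mul] at this
      rw [this]
      exact congrArg P.ord (Subtype.ext ey₁.symm))
  ext Q
  rw [hr.2 z₁ hz₁m hz₁k hz0' (BDiv N c (TDiv N ℓ D)) (fun P => by
      have := hBT.2 P
      rw [one_mul] at this
      rw [this]
      exact congrArg P.ord (Subtype.ext ez₁.symm)) Q, ez, Q.ord_mul hv0 hf0, Finsupp.add_apply,
    FrDiv_isDiv k (N * c) ℓ h1 Q, VerDiv_isDiv k (N * c) ℓ h1 Q, add_comm]

end

end Fermat.Agent.RED.GalEq
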